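import Fermat.Agent.S19.A.Defs

/-!
# S19 / A2a : elementary facts on `ℤ_(ℓ)`, `ℚ̄` and a valuation ring `A` of `ℚ̄` over `ℓ`
(`Fermat.Agent.S28.UFD` / `Fermat.Agent.S28.Ten` contain some facts on `ratLocalizedAt`; they may be
imported.)
-/

set_option autoImplicit false

namespace Fermat.Agent.S19

local instance isAlgebraicQb_rl : Algebra.IsAlgebraic ℚ (AlgebraicClosure ℚ) :=
  AlgebraicClosure.isAlgebraic ℚ
local instance isAlgClosureQb_rl : IsAlgClosure ℚ (AlgebraicClosure ℚ) :=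
  ⟨inferInstance, inferInstance⟩
local instance normalQb_rl : Normal ℚ (AlgebraicClosure ℚ) :=
  IsAlgClosure.normal ℚ (AlgebraicClosure ℚ)
local instance isGaloisQb_rl : IsGalois ℚ (AlgebraicClosure ℚ) where

variable (ℓ : ℕ) [Fact ℓ.Prime]

/-- a quotient of integers with denominator prime to `ℓ` is in `ℤ_(ℓ)`. -/
theorem div_mem_ratLocalizedAt (a b : ℤ) (hb : ¬ (ℓ : ℤ) ∣ b) :
    (a : ℚ) / (b : ℚ) ∈ GaloisRep.ratLocalizedAt ℓ := by
  have hℓ : ℓ.Prime := Fact.out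
  show ((a : ℚ) / (b : ℚ)).den.Coprime ℓ
  have h5 := Rat.den_dvd a b
  rw [Rat.divInt_eq_div] at h5
  refine ((Nat.Prime.coprime_iff_not_dvd hℓ).2 fun h2 => hb ?_).symm
  exact (Int.natCast_dvd_natCast.mpr h2).trans h5

theorem not_dvd_den (x : Rl ℓ) : ¬ (ℓ : ℤ) ∣ ((x : ℚ).den : ℤ) := by
  have hℓ : ℓ.Prime := Fact.out
  intro h
  have h1 : ℓ ∣ (x : ℚ).den := by exact_mod_cast h
  have hx : (x : ℚ).den.Coprime ℓ := x.2
  exact hℓ.one_lt.ne' (Nat.Coprime.eq_one_of_dvd hx.symm h1)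

/-- every nonzero element of `ℤ_(ℓ)` is a unit times a power of `ℓ`. -/
theorem exists_associated_pow {x : Rl ℓ} (hx : x ≠ 0) : ∃ n : ℕ, Associated ((ℓ : Rl ℓ) ^ n) x := by
  have hℓ : ℓ.Prime := Fact.out
  have hx' : (x : ℚ) ≠ 0 := fun h => hx (Subtype.ext h)
  have hnum : (x : ℚ).num ≠ 0 := Rat.num_ne_zero.mpr hx'
  have hfin : FiniteMultiplicity (ℓ : ℤ) (x : ℚ).num :=
    Int.finiteMultiplicity_iff.mpr ⟨by simpa using hℓ.one_lt.ne', hnum⟩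
  obtain ⟨m, hm, hndvd⟩ := hfin.exists_eq_pow_mul_and_not_dvd
  set n := multiplicity (ℓ : ℤ) (x : ℚ).num
  have hm0 : (m : ℚ) ≠ 0 := by
    intro h
    have : m = 0 := by exact_mod_cast h
    exact hndvd (this ▸ dvd_zero _)
  have hd0 : ((x : ℚ).den : ℚ) ≠ 0 := by exact_mod_cast (x : ℚ).den_nz
  let u : Rl ℓ := ⟨(m : ℚ) / (((x : ℚ).den : ℤ) : ℚ), div_mem_ratLocalizedAt ℓ _ _ (not_dvd_den ℓ x)⟩
  let v : Rl ℓ := ⟨((((x : ℚ).den : ℤ) : ℚ)) / (m : ℚ), div_mem_ratLocalizedAt ℓ _ _ hndvd⟩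
  have huv : u * v = 1 := by
    apply Subtype.ext
    show (m : ℚ) / (((x : ℚ).den : ℤ) : ℚ) * ((((x : ℚ).den : ℤ) : ℚ) / (m : ℚ)) = 1
    push_cast
    field_simp
  refine ⟨n, ⟨Units.mkOfMulEqOne u v huv, ?_⟩⟩
  apply Subtype.ext
  show ((ℓ : ℚ)) ^ n * ((m : ℚ) / (((x : ℚ).den : ℤ) : ℚ)) = (x : ℚ)
  have h4 : (x : ℚ) = ((x : ℚ).num : ℚ) / ((x : ℚ).den : ℚ) := (Rat.num_div_den _).symm
  have h5 : ((x : ℚ).num : ℚ) = (ℓ : ℚ) ^ n * (m : ℚ) := by exact_mod_cast hm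
  rw [← mul_div_assoc, ← h5]
  push_cast
  exact h4.symm

theorem natCast_not_isUnit : ¬ IsUnit (ℓ : Rl ℓ) := by
  have hℓ : ℓ.Prime := Fact.out
  rintro ⟨u, hu⟩
  have h1 : ((ℓ : Rl ℓ) : ℚ) * ((u⁻¹ : (Rl ℓ)ˣ) : Rl ℓ) = 1 := by
    have : (ℓ : Rl ℓ) * ((u⁻¹ : (Rl ℓ)ˣ) : Rl ℓ) = 1 := by rw [← hu]; exact u.mul_inv
    exact_mod_cast congrArg (Subtype.val) this
  set w : Rl ℓ := ((u⁻¹ : (Rl ℓ)ˣ) : Rl ℓ)
  have hℓ0 : (ℓ : ℚ) ≠ 0 := by exact_mod_cast hℓ.ne_zero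
  have h2 : (w : ℚ) = (ℓ : ℚ)⁻¹ := by
    have h3 : (ℓ : ℚ) * (w : ℚ) = 1 := by exact_mod_cast h1
    field_simp
    linarith
  have h3 : (w : ℚ).den.Coprime ℓ := w.2
  rw [h2] at h3
  have h4 : ((ℓ : ℚ)⁻¹).den = ℓ := by
    rw [Rat.inv_natCast_den, if_neg hℓ.ne_zero]
  rw [h4] at h3
  exact hℓ.one_lt.ne' ((Nat.coprime_self ℓ).mp h3)

theorem irreducible_natCast : Irreducible (ℓ : Rl ℓ) := by
  have hℓ : ℓ.Prime := Fact.out
  refine ⟨natCast_not_isUnit ℓ, fun a b hab => ?_⟩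
  have hℓ0 : (ℓ : Rl ℓ) ≠ 0 := by exact_mod_cast hℓ.ne_zero
  have ha0 : a ≠ 0 := by rintro rfl; exact hℓ0 (by simpa using hab)
  have hb0 : b ≠ 0 := by rintro rfl; exact hℓ0 (by simpa using hab)
  obtain ⟨n, u, hu⟩ := exists_associated_pow ℓ ha0
  obtain ⟨k, v, hv⟩ := exists_associated_pow ℓ hb0
  rcases Nat.eq_zero_or_pos n with rfl | hn
  · left; rw [← hu]; simp
  rcases Nat.eq_zero_or_pos k with rfl | hk
  · right; rw [← hv]; simp
  exfalso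
  -- `ℓ = ℓ^(n+k) * unit`, so `ℓ^(n+k-1)` is a unit
  obtain ⟨n', rfl⟩ : ∃ n', n = n' + 1 := ⟨n - 1, by omega⟩
  obtain ⟨k', rfl⟩ : ∃ k', k = k' + 1 := ⟨k - 1, by omega⟩
  have h1 : (ℓ : Rl ℓ) * 1 = (ℓ : Rl ℓ) * ((ℓ : Rl ℓ) * ((ℓ : Rl ℓ) ^ (n' + k') * (u * v))) := by
    rw [mul_one]
    conv_lhs => rw [hab, ← hu, ← hv]
    ring
  have h2 := mul_left_cancel₀ hℓ0 h1
  exact natCast_not_isUnit ℓ (IsUnit.of_mul_eq_one _ h2.symm)

theorem isDiscreteValuationRing_Rl : IsDiscreteValuationRing (Rl ℓ) :=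
  IsDiscreteValuationRing.ofHasUnitMulPowIrreducibleFactorization
    ⟨(ℓ : Rl ℓ), irreducible_natCast ℓ, fun hx => exists_associated_pow ℓ hx⟩

theorem isPrincipalIdealRing_Rl : IsPrincipalIdealRing (Rl ℓ) :=
  (isDiscreteValuationRing_Rl ℓ).toIsPrincipalIdealRing

omit [Fact ℓ.Prime] in
/-- every rational number is `r / s` with `r s : ℤ_(ℓ)`, `s ≠ 0`. -/
theorem exists_Rl_mul_eq (q : ℚ) : ∃ s : Rl ℓ, s ≠ 0 ∧ ∃ r : Rl ℓ, (s : ℚ) * q = r := by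
  refine ⟨(q.den : Rl ℓ), by exact_mod_cast q.den_nz, (q.num : Rl ℓ), ?_⟩
  push_cast
  rw [mul_comm]
  exact Rat.mul_den_eq_num q

variable {ℓ} (A : ValuationSubring Qb) (hA : A.LiesOverPrime ℓ)
include hA

/-- an integer prime to `ℓ` is a unit of `A`. -/
theorem inv_intCast_mem (b : ℤ) (hb : ¬ (ℓ : ℤ) ∣ b) : ((b : Qb))⁻¹ ∈ A := by
  have hℓ : ℓ.Prime := Fact.out
  have hcop : IsCoprime b (ℓ : ℤ) := by
    have := (Int.prime_iff_natAbs_prime.mpr (by simpa using hℓ) : Prime (ℓ : ℤ))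
    exact ((this.coprime_iff_not_dvd).mpr hb).symm
  obtain ⟨x, y, hxy⟩ := hcop
  by_contra hcon
  -- then `b` is a non-unit of `A`
  have hb0 : (b : Qb) ≠ 0 := by
    intro h
    apply hcon
    rw [h, inv_zero]
    exact A.zero_mem
  have hbA : (b : Qb) ∈ A := intCast_mem A b
  have hbn : (b : Qb) ∈ A.nonunits := by
    rw [ValuationSubring.mem_nonunits_iff_exists_mem_maximalIdeal]
    refine ⟨hbA, ?_⟩
    rw [IsLocalRing.mem_maximalIdeal, mem_nonunits_iff]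
    intro hu
    obtain ⟨u, hu⟩ := hu
    apply hcon
    have h1 : (b : Qb) * ((u⁻¹ : (A)ˣ) : A) = 1 := by
      have : ((u : A) : Qb) = (b : Qb) := by rw [hu]
      rw [← this]
      exact_mod_cast congrArg Subtype.val u.mul_inv
    have h2 : ((b : Qb))⁻¹ = (((u⁻¹ : (A)ˣ) : A) : Qb) := by
      field_simp
      exact h1.symm
    rw [h2]
    exact Subtype.mem _
  have hA' : (ℓ : Qb) ∈ A.nonunits := hA
  rw [ValuationSubring.mem_nonunits_iff_exists_mem_maximalIdeal] at hbn hA'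
  obtain ⟨h1, h1'⟩ := hbn
  obtain ⟨h2, h2'⟩ := hA'
  have h3 : (1 : A) ∈ IsLocalRing.maximalIdeal A := by
    have h4 : (1 : A) = (x : A) * ⟨(b : Qb), h1⟩ + (y : A) * ⟨(ℓ : Qb), h2⟩ := by
      apply Subtype.ext
      have : ((x * b + y * (ℓ : ℤ) : ℤ) : Qb) = 1 := by rw [hxy]; simp
      push_cast at this ⊢
      exact this.symm
    rw [h4]
    exact Ideal.add_mem _ (Ideal.mul_mem_left _ _ h1') (Ideal.mul_mem_left _ _ h2')
  exact (Ideal.ne_top_iff_one _).mp (IsLocalRing.maximalIdeal.isMaximal A).ne_top h3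

theorem algebraMap_Rl_mem (r : Rl ℓ) : algebraMap (Rl ℓ) Qb r ∈ A := by
  have h1 : algebraMap (Rl ℓ) Qb r = algebraMap ℚ Qb (r : ℚ) := rfl
  have h4 : (r : ℚ) = ((r : ℚ).num : ℚ) / ((r : ℚ).den : ℚ) := (Rat.num_div_den _).symm
  rw [h1, h4, map_div₀, map_intCast, map_natCast, div_eq_mul_inv]
  refine A.mul_mem _ _ (intCast_mem A _) ?_
  have := inv_intCast_mem A hA ((r : ℚ).den : ℤ) (not_dvd_den ℓ r)
  exact_mod_cast this

theorem mem_Rl_of_mem (q : ℚ) (h : algebraMap ℚ Qb q ∈ A) : q ∈ GaloisRep.ratLocalizedAt ℓ := by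
  have hℓ : ℓ.Prime := Fact.out
  show q.den.Coprime ℓ
  refine ((Nat.Prime.coprime_iff_not_dvd hℓ).2 fun h2 => ?_).symm
  -- `ℓ ∣ den`, so `ℓ ∤ num`, `num` is a unit of `A`, but `num = den * q` is a non-unit
  have hnum : ¬ (ℓ : ℤ) ∣ q.num := by
    intro h3
    have h4 : ℓ ∣ q.num.natAbs := Int.natCast_dvd.mp h3
    have h5 := Nat.dvd_gcd h4 h2
    rw [q.reduced.gcd_eq_one] at h5
    exact hℓ.one_lt.ne' (Nat.dvd_one.1 h5)
  have hinv := inv_intCast_mem A hA q.num hnum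
  obtain ⟨d, hd⟩ := h2
  have hA' : (ℓ : Qb) ∈ A.nonunits := hA
  rw [ValuationSubring.mem_nonunits_iff_exists_mem_maximalIdeal] at hA'
  obtain ⟨h2, h2'⟩ := hA'
  have hq : (q.num : Qb) = (ℓ : Qb) * ((d : Qb) * algebraMap ℚ Qb q) := by
    have h6 : (q.num : ℚ) = (ℓ : ℚ) * ((d : ℚ) * q) := by
      rw [← mul_assoc, ← Rat.mul_den_eq_num q, hd]
      push_cast; ring
    have := congrArg (algebraMap ℚ Qb) h6
    simpa using this
  have hnum0 : (q.num : Qb) ≠ 0 := by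
    intro h0
    have : q.num = 0 := by exact_mod_cast h0
    exact hnum (this ▸ dvd_zero _)
  have h3 : (1 : A) ∈ IsLocalRing.maximalIdeal A := by
    have h4 : (1 : A) = (⟨_, hinv⟩ * ((d : A) * ⟨_, h⟩)) * ⟨(ℓ : Qb), h2⟩ := by
      apply Subtype.ext
      show (1 : Qb) = ((q.num : Qb))⁻¹ * (((d : A) : Qb) * algebraMap ℚ Qb q) * (ℓ : Qb)
      have : ((d : A) : Qb) = (d : Qb) := by push_cast; rfl
      rw [this]
      field_simp
      rw [hq]; ring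
    rw [h4]
    exact Ideal.mul_mem_left _ _ h2'
  exact (Ideal.ne_top_iff_one _).mp (IsLocalRing.maximalIdeal.isMaximal A).ne_top h3

open Polynomial in
/-- an element all of whose conjugates lie in `A` is integral over `ℤ_(ℓ)`
(the coefficients of its minimal polynomial over `ℚ` are in `A ∩ ℚ = ℤ_(ℓ)`). -/
theorem isIntegral_of_forall_mem (z : Qb) (h : ∀ σ : Gam, σ z ∈ A) : IsIntegral (Rl ℓ) z := by
  have hz : IsIntegral ℚ z := Algebra.IsIntegral.isIntegral z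
  set p := minpoly ℚ z with hp
  have hsplit : (p.map (algebraMap ℚ Qb)).Splits := IsAlgClosed.splits _
  have hmonic : (p.map (algebraMap ℚ Qb)).Monic := (minpoly.monic hz).map _
  have hprod : p.map (algebraMap ℚ Qb) =
      ((p.map (algebraMap ℚ Qb)).roots.map fun a => X - C a).prod := by
    have := hsplit.eq_prod_roots
    rwa [hmonic.leadingCoeff, C_1, one_mul] at this
  have hlift : p.map (algebraMap ℚ Qb) ∈ lifts A.toSubring.subtype := by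
    rw [hprod]
    refine Subsemiring.multiset_prod_mem _ _ fun c hc => ?_
    obtain ⟨a, ha, rfl⟩ := Multiset.mem_map.mp hc
    have haroot : aeval a p = 0 := by
      have := (mem_roots'.mp ha).2
      rwa [IsRoot.def, eval_map_algebraMap] at this
    obtain ⟨σ, hσ⟩ := minpoly.exists_algEquiv_of_root' hz.isAlgebraic haroot
    have haA : a ∈ A := hσ ▸ h σ
    rw [lifts_iff_coeff_lifts]
    intro n
    have : (X - C a : Qb[X]) = (X - C (⟨a, haA⟩ : A.toSubring)).map A.toSubring.subtype := by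
      simp
    rw [this, coeff_map]
    exact ⟨_, rfl⟩
  have hlift2 : p ∈ lifts (algebraMap (Rl ℓ) ℚ) := by
    rw [lifts_iff_coeff_lifts] at hlift ⊢
    intro n
    obtain ⟨c, hc⟩ := hlift n
    rw [coeff_map] at hc
    have : algebraMap ℚ Qb (p.coeff n) ∈ A := by rw [← hc]; exact c.2
    exact ⟨⟨_, mem_Rl_of_mem A hA _ this⟩, rfl⟩
  obtain ⟨q, hq1, -, hq2⟩ := lifts_and_natDegree_eq_and_monic hlift2 (minpoly.monic hz)
  refine ⟨q, hq2, ?_⟩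
  have : aeval z (q.map (algebraMap (Rl ℓ) ℚ)) = 0 := by rw [hq1]; exact minpoly.aeval ℚ z
  rwa [aeval_map_algebraMap, aeval_def] at this

omit hA in
theorem mem_range_of_fixed (z : Qb) (h : ∀ σ : Gam, σ z = z) :
    z ∈ Set.range (algebraMap ℚ Qb) :=
  (InfiniteGalois.mem_range_algebraMap_iff_fixed z).mpr h

/-- a fixed element of `A` comes from `ℤ_(ℓ)`. -/
theorem mem_range_Rl_of_fixed (z : Qb) (h : ∀ σ : Gam, σ z = z) (hz : z ∈ A) :
    z ∈ Set.range (algebraMap (Rl ℓ) Qb) := by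
  obtain ⟨q, rfl⟩ := mem_range_of_fixed z h
  exact ⟨⟨q, mem_Rl_of_mem A hA q hz⟩, rfl⟩

end Fermat.Agent.S19
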