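import Mathlib

/-!
# S19 / A1 : a Hopf algebra from an algebra of functions on a finite abelian group

`H` is an `R`-subalgebra of `G → K` (`G` a finite abelian group, `K` a field), free over `R` with a
basis which is a `K`-basis of `G → K`, stable under "translation" (`hΔ`), with `a 0 ∈ R` (`hε`) and
stable under `x ↦ -x` (`hS`).  Then `H` is a finite free commutative cocommutative Hopf algebra
over `R` and its `K`-points are the evaluations at the points of `G`.

Proof sketch.  `μ₂ : H ⊗[R] H → (G × G → K)`, `a ⊗ b ↦ ((x, y) ↦ a x * b y)` and the analogous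
`μ₃` are injective (the `b i ⊗ b j` go to a `K`-basis).  `comul a` is the unique preimage under `μ₂`
of `(x, y) ↦ a (x + y)`; `counit a` the preimage of `a 0`; `antipode a = a ∘ neg`.  All axioms are
checked after applying `μ₂`, `μ₃` or the inclusion `H → (G → K)`.  An `R`-algebra map `H → K`
extends to a `K`-algebra map `(G → K) → K`, which is an evaluation.
-/

set_option autoImplicit false

open scoped TensorProduct

namespace Fermat.Agent.S19

namespace HopfFn

section general

variable {R : Type} [CommRing R] {K : Type} [Field K] [Algebra R K]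

theorem linearIndependent_mul_prod {X Y ι κ : Type} [Finite ι] [Finite κ]
    (f : ι → X → K) (g : κ → Y → K)
    (hf : LinearIndependent K f) (hg : LinearIndependent K g) :
    LinearIndependent K (fun p : ι × κ => fun q : X × Y => f p.1 q.1 * g p.2 q.2) := by
  classical
  cases nonempty_fintype ι
  cases nonempty_fintype κ
  rw [Fintype.linearIndependent_iff] at hf hg ⊢
  intro c hc p
  obtain ⟨i, j⟩ := p
  have h1 : ∀ y, ∀ i, ∑ j, c (i, j) * g j y = 0 := by
    intro y
    apply hf
    ext x
    have := congrFun hc (x, y)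
    simp only [Finset.sum_apply, Pi.smul_apply, smul_eq_mul, Pi.zero_apply] at this ⊢
    rw [Fintype.sum_prod_type] at this
    rw [← this]
    refine Finset.sum_congr rfl fun i _ => ?_
    rw [Finset.sum_mul]
    refine Finset.sum_congr rfl fun j _ => ?_
    ring
  have h2 : ∑ j, c (i, j) • g j = 0 := by
    ext y
    simpa using h1 y i
  exact hg (fun j => c (i, j)) h2 j

theorem injective_of_basis {M V ι : Type} [AddCommMonoid M] [Module R M] [AddCommGroup V]
    [Module R V] [Module K V] [IsScalarTower R K V]
    (hRK : Function.Injective (algebraMap R K))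
    (b : Module.Basis ι R M) (φ : M →ₗ[R] V) (h : LinearIndependent K (fun i => φ (b i))) :
    Function.Injective φ := by
  have h' : LinearIndependent R (fun i => φ (b i)) := by
    refine h.restrict_scalars ?_
    intro r s hrs
    apply hRK
    simpa [Algebra.smul_def] using hrs
  have key : ∀ x, φ x = Finsupp.linearCombination R (fun i => φ (b i)) (b.repr x) := by
    intro x
    conv_lhs => rw [← b.linearCombination_repr x]
    rw [Finsupp.apply_linearCombination]
    rfl
  intro x y hxy
  rw [key, key] at hxy
  exact b.repr.injective (h' hxy)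

/-- pull back of functions as an algebra hom -/
noncomputable def pull {X Y : Type} (f : Y → X) : (X → K) →ₐ[R] (Y → K) :=
  AlgHom.pi (fun y => Pi.evalAlgHom R (fun _ => K) (f y))

@[simp] theorem pull_apply {X Y : Type} (f : Y → X) (u : X → K) (y : Y) :
    (pull (R := R) f u) y = u (f y) := rfl

/-- the external product of two algebras of functions. -/
noncomputable def prodEv {A B X Y : Type} [Semiring A] [Semiring B] [Algebra R A] [Algebra R B]
    (φ : A →ₐ[R] (X → K)) (ψ : B →ₐ[R] (Y → K)) : A ⊗[R] B →ₐ[R] (X × Y → K) :=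
  Algebra.TensorProduct.productMap ((pull Prod.fst).comp φ) ((pull Prod.snd).comp ψ)

@[simp] theorem prodEv_tmul {A B X Y : Type} [Semiring A] [Semiring B] [Algebra R A] [Algebra R B]
    (φ : A →ₐ[R] (X → K)) (ψ : B →ₐ[R] (Y → K)) (a : A) (b : B) (q : X × Y) :
    prodEv φ ψ (a ⊗ₜ b) q = φ a q.1 * ψ b q.2 := by
  simp [prodEv]

theorem prodEv_indep {A B X Y ι κ : Type} [Semiring A] [Semiring B] [Algebra R A] [Algebra R B]
    [Finite ι] [Finite κ]
    (φ : A →ₐ[R] (X → K)) (ψ : B →ₐ[R] (Y → K)) (bA : Module.Basis ι R A) (bB : Module.Basis κ R B)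
    (hA : LinearIndependent K (fun i => φ (bA i))) (hB : LinearIndependent K (fun i => ψ (bB i))) :
    LinearIndependent K (fun p => prodEv φ ψ (bA.tensorProduct bB p)) := by
  have := linearIndependent_mul_prod _ _ hA hB
  convert this using 2 with p
  rw [Module.Basis.tensorProduct_apply]
  ext q
  simp

/-- evaluation at a point. -/
noncomputable def evalAt {G : Type} {H : Subalgebra R (G → K)} (x : G) : H →ₐ[R] K :=
  (Pi.evalAlgHom R (fun _ => K) x).comp H.val

@[simp] theorem evalAt_apply {G : Type} {H : Subalgebra R (G → K)} (x : G) (a : H) :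
    evalAt (H := H) x a = a.1 x := rfl

end general

section main

variable {R : Type} [CommRing R] {K : Type} [Field K] [Algebra R K]
  {G : Type} [AddCommGroup G] (H : Subalgebra R (G → K))

/-- `a ⊗ b ↦ ((x, y) ↦ a x * b y)`. -/
noncomputable def ev2 : H ⊗[R] H →ₐ[R] (G × G → K) := prodEv H.val H.val

/-- `a ⊗ (b ⊗ c) ↦ ((x, y, z) ↦ a x * (b y * c z))`. -/
noncomputable def ev3 : H ⊗[R] (H ⊗[R] H) →ₐ[R] (G × G × G → K) := prodEv H.val (ev2 H)

omit [AddCommGroup G] in
@[simp] theorem ev2_tmul (a b : H) (q : G × G) : ev2 H (a ⊗ₜ b) q = a.1 q.1 * b.1 q.2 := by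
  simp [ev2]

omit [AddCommGroup G] in
@[simp] theorem ev3_tmul (a : H) (t : H ⊗[R] H) (q : G × G × G) :
    ev3 H (a ⊗ₜ t) q = a.1 q.1 * ev2 H t q.2 := by
  simp [ev3]

/-- the hypotheses, in the form in which they are used. -/
structure Hyp : Prop where
  inj : Function.Injective (algebraMap R K)
  inj2 : Function.Injective (ev2 H)
  inj3 : Function.Injective (ev3 H)
  hΔ : ∀ a : H, ∃ t, ev2 H t = fun q => a.1 (q.1 + q.2)
  hε : ∀ a : H, ∃ r : R, algebraMap R K r = a.1 0
  hS : ∀ a ∈ H, (fun x => a (-x)) ∈ H

variable {H} (h : Hyp H)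

/-- the comultiplication. -/
noncomputable def comulHom : H →ₐ[R] H ⊗[R] H :=
  (AlgEquiv.ofInjective (ev2 H) h.inj2).symm.toAlgHom.comp
    (((pull (fun q : G × G => q.1 + q.2)).comp H.val).codRestrict (ev2 H).range (by
      intro a
      obtain ⟨t, ht⟩ := h.hΔ a
      exact ⟨t, ht⟩))

theorem ev2_comulHom (a : H) (q : G × G) : ev2 H (comulHom h a) q = a.1 (q.1 + q.2) := by
  have := AlgEquiv.apply_symm_apply (AlgEquiv.ofInjective (ev2 H) h.inj2)
    ((((pull (fun q : G × G => q.1 + q.2)).comp H.val).codRestrict (ev2 H).range (by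
      intro a
      obtain ⟨t, ht⟩ := h.hΔ a
      exact ⟨t, ht⟩)) a)
  have h2 := congrArg Subtype.val this
  exact congrFun h2 q

/-- the counit. -/
noncomputable def counitHom : H →ₐ[R] R :=
  (AlgEquiv.ofInjective (Algebra.ofId R K) h.inj).symm.toAlgHom.comp
    (((Pi.evalAlgHom R (fun _ => K) (0 : G)).comp H.val).codRestrict (Algebra.ofId R K).range (by
      intro a
      obtain ⟨t, ht⟩ := h.hε a
      exact ⟨t, ht⟩))

theorem algebraMap_counitHom (a : H) : algebraMap R K (counitHom h a) = a.1 0 := by
  have := AlgEquiv.apply_symm_apply (AlgEquiv.ofInjective (Algebra.ofId R K) h.inj)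
    ((((Pi.evalAlgHom R (fun _ => K) (0 : G)).comp H.val).codRestrict (Algebra.ofId R K).range (by
      intro a
      obtain ⟨t, ht⟩ := h.hε a
      exact ⟨t, ht⟩)) a)
  exact congrArg Subtype.val this

/-- the antipode. -/
noncomputable def antipodeHom : H →ₗ[R] H where
  toFun a := ⟨fun x => a.1 (-x), h.hS a.1 a.2⟩
  map_add' _ _ := rfl
  map_smul' _ _ := rfl

@[simp] theorem antipodeHom_apply (a : H) (x : G) : (antipodeHom h a).1 x = a.1 (-x) := rfl

theorem ev3_map_id_comul (t : H ⊗[R] H) (q : G × G × G) :
    ev3 H (Algebra.TensorProduct.map (.id R H) (comulHom h) t) q = ev2 H t (q.1, q.2.1 + q.2.2) := by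
  induction t using TensorProduct.induction_on with
  | zero => simp
  | tmul a b => simp [ev2_comulHom]
  | add s t hs ht => simp only [map_add, Pi.add_apply, hs, ht]

omit [AddCommGroup G] in
theorem ev3_assoc_tmul (s : H ⊗[R] H) (c : H) (q : G × G × G) :
    ev3 H (Algebra.TensorProduct.assoc R R R H H H (s ⊗ₜ c)) q
      = ev2 H s (q.1, q.2.1) * c.1 q.2.2 := by
  induction s using TensorProduct.induction_on with
  | zero => simp
  | tmul a b => simp [mul_assoc]
  | add s t hs ht => simp only [TensorProduct.add_tmul, map_add, Pi.add_apply, hs, ht, add_mul]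

theorem ev3_assoc_map_comul_id (t : H ⊗[R] H) (q : G × G × G) :
    ev3 H (Algebra.TensorProduct.assoc R R R H H H
      (Algebra.TensorProduct.map (comulHom h) (.id R H) t)) q = ev2 H t (q.1 + q.2.1, q.2.2) := by
  induction t using TensorProduct.induction_on with
  | zero => simp
  | tmul a b => simp [ev2_comulHom, ev3_assoc_tmul]
  | add s t hs ht => simp only [map_add, Pi.add_apply, hs, ht]

theorem lid_map_counit_id (t : H ⊗[R] H) (y : G) :
    (Algebra.TensorProduct.lid R H (Algebra.TensorProduct.map (counitHom h) (.id R H) t)).1 y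
      = ev2 H t (0, y) := by
  induction t using TensorProduct.induction_on with
  | zero => simp
  | tmul a b => simp [Algebra.smul_def, algebraMap_counitHom]
  | add s t hs ht => simp only [map_add, Pi.add_apply, hs, ht, Subalgebra.coe_add]

theorem rid_map_id_counit (t : H ⊗[R] H) (y : G) :
    (Algebra.TensorProduct.rid R R H (Algebra.TensorProduct.map (.id R H) (counitHom h) t)).1 y
      = ev2 H t (y, 0) := by
  induction t using TensorProduct.induction_on with
  | zero => simp
  | tmul a b => simp [Algebra.smul_def, algebraMap_counitHom, mul_comm]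
  | add s t hs ht => simp only [map_add, Pi.add_apply, hs, ht, Subalgebra.coe_add]

/-- the bialgebra structure. -/
noncomputable abbrev bialg : Bialgebra R H :=
  Bialgebra.ofAlgHom (comulHom h) (counitHom h)
    (by
      ext a
      apply h.inj3
      ext q
      simp only [AlgHom.comp_apply, AlgEquiv.toAlgHom_apply]
      rw [ev3_assoc_map_comul_id, ev3_map_id_comul, ev2_comulHom, ev2_comulHom, add_assoc])
    (by
      ext a
      apply (Algebra.TensorProduct.lid R H).injective
      ext y
      simp only [AlgHom.comp_apply, AlgEquiv.toAlgHom_apply, AlgEquiv.apply_symm_apply]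
      rw [lid_map_counit_id, ev2_comulHom, zero_add])
    (by
      ext a
      apply (Algebra.TensorProduct.rid R R H).injective
      ext y
      simp only [AlgHom.comp_apply, AlgEquiv.toAlgHom_apply, AlgEquiv.apply_symm_apply]
      rw [rid_map_id_counit, ev2_comulHom, add_zero])

theorem mul_rTensor_antipode (t : H ⊗[R] H) (x : G) :
    (LinearMap.mul' R H ((antipodeHom h).rTensor H t)).1 x = ev2 H t (-x, x) := by
  induction t using TensorProduct.induction_on with
  | zero => simp
  | tmul a b => simp
  | add s t hs ht => simp only [map_add, Pi.add_apply, hs, ht, Subalgebra.coe_add]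

theorem mul_lTensor_antipode (t : H ⊗[R] H) (x : G) :
    (LinearMap.mul' R H ((antipodeHom h).lTensor H t)).1 x = ev2 H t (x, -x) := by
  induction t using TensorProduct.induction_on with
  | zero => simp
  | tmul a b => simp
  | add s t hs ht => simp only [map_add, Pi.add_apply, hs, ht, Subalgebra.coe_add]

/-- the Hopf algebra structure. -/
noncomputable abbrev hopf : HopfAlgebra R H :=
  { bialg h with
    antipode := antipodeHom h
    mul_antipode_rTensor_comul := by
      ext a x
      simp only [LinearMap.comp_apply]
      erw [mul_rTensor_antipode, ev2_comulHom h]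
      simp only [neg_add_cancel]
      exact (algebraMap_counitHom h a).symm
    mul_antipode_lTensor_comul := by
      ext a x
      simp only [LinearMap.comp_apply]
      erw [mul_lTensor_antipode, ev2_comulHom h]
      simp only [add_neg_cancel]
      exact (algebraMap_counitHom h a).symm }

omit [AddCommGroup G] in
theorem ev2_comm (t : H ⊗[R] H) (q : G × G) :
    ev2 H (TensorProduct.comm R H H t) q = ev2 H t (q.2, q.1) := by
  induction t using TensorProduct.induction_on with
  | zero => simp
  | tmul a b => simp [mul_comm]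
  | add s t hs ht => simp only [map_add, Pi.add_apply, hs, ht]

theorem isCocomm : @Coalgebra.IsCocomm R H _ _ _ (hopf h).toCoalgebra := by
  let _ := hopf h
  refine ⟨?_⟩
  ext a
  apply h.inj2
  ext q
  simp only [LinearMap.comp_apply]
  erw [ev2_comm, ev2_comulHom h, ev2_comulHom h]
  rw [add_comm]

omit [AddCommGroup G] in
theorem lift_evalAt (x y : G) (t : H ⊗[R] H) :
    Algebra.TensorProduct.lift (evalAt (H := H) x) (evalAt (H := H) y) (fun _ _ => .all ..) t
      = ev2 H t (x, y) := by
  induction t using TensorProduct.induction_on with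
  | zero => simp
  | tmul a b => simp
  | add s t hs ht => simp only [map_add, Pi.add_apply, hs, ht]

theorem evalAt_add (x y : G) :
    letI := hopf h
    (WithConv.toConv (evalAt (H := H) (x + y)) : WithConv (H →ₐ[R] K))
      = WithConv.toConv (evalAt x) * WithConv.toConv (evalAt y) := by
  let _ := hopf h
  apply WithConv.ext
  ext a
  have := AlgHom.convMul_apply (WithConv.toConv (evalAt (H := H) x))
    (WithConv.toConv (evalAt (H := H) y)) a
  refine Eq.trans ?_ this.symm
  erw [lift_evalAt, ev2_comulHom h]
  rfl

end main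

section points

variable {R : Type} [CommRing R] {K : Type} [Field K] [Algebra R K]
  {G : Type} [Finite G] (H : Subalgebra R (G → K))
  {ι : Type} (b : Module.Basis ι R H)
  (hb : LinearIndependent K (fun i => ((b i : H) : G → K)))
  (hspan : Submodule.span K (Set.range fun i => ((b i : H) : G → K)) = ⊤)

omit [Finite G] in
include hspan in
theorem evalAt_injective : Function.Injective (evalAt (H := H) (R := R)) := by
  classical
  intro x y hxy
  have h1 : ∀ u : G → K, u x = u y := by
    intro u
    have hu : u ∈ Submodule.span K (Set.range fun i => ((b i : H) : G → K)) := by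
      rw [hspan]; trivial
    induction hu using Submodule.span_induction with
    | mem u hu =>
      obtain ⟨i, rfl⟩ := hu
      exact DFunLike.congr_fun hxy (b i)
    | zero => rfl
    | add u v _ _ hu hv => simp only [Pi.add_apply, hu, hv]
    | smul c u _ hu => simp only [Pi.smul_apply, hu]
  by_contra hne
  have := h1 (Pi.single x 1)
  rw [Pi.single_eq_same, Pi.single_eq_of_ne (Ne.symm hne)] at this
  exact one_ne_zero this

include hb hspan in
theorem evalAt_surjective : Function.Surjective (evalAt (H := H) (R := R)) := by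
  classical
  cases nonempty_fintype G
  intro f
  let B : Module.Basis ι K (G → K) := Module.Basis.mk hb (by rw [hspan])
  have hB : ∀ i, B i = ((b i : H) : G → K) := fun i => Module.Basis.mk_apply hb _ i
  let F : (G → K) →ₗ[K] K := B.constr K (fun i => f (b i))
  have hFb : ∀ i, F ((b i : H) : G → K) = f (b i) := by
    intro i
    rw [← hB i]
    exact B.constr_basis K _ i
  have hF : ∀ a : H, F a.1 = f a := by
    intro a
    have h1 : (F.restrictScalars R).comp H.val.toLinearMap = f.toLinearMap := by
      apply b.ext
      intro i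
      exact hFb i
    exact LinearMap.congr_fun h1 a
  have hmul : ∀ u v, F (u * v) = F u * F v := by
    have h2 : (LinearMap.mul K (G → K)).compr₂ F = (LinearMap.mul K K).compl₁₂ F F := by
      apply B.ext
      intro i
      apply B.ext
      intro j
      simp only [LinearMap.compr₂_apply, LinearMap.mul_apply', LinearMap.compl₁₂_apply, hB]
      have : ((b i : H) : G → K) * ((b j : H) : G → K) = ((b i * b j : H) : G → K) := rfl
      rw [this, hF, hFb, hFb, map_mul]
    intro u v
    exact LinearMap.congr_fun (LinearMap.congr_fun h2 u) v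
  have hone : F 1 = 1 := by
    have : (1 : G → K) = ((1 : H) : G → K) := rfl
    rw [this, hF, map_one]
  have hsum : ∑ x : G, F (Pi.single x 1) = 1 := by
    have h1 : ∑ x : G, (Pi.single x 1 : G → K) = 1 := by
      ext y
      simp [Finset.sum_apply, Pi.single_apply]
    rw [← map_sum, h1, hone]
  obtain ⟨x, hx⟩ : ∃ x : G, F (Pi.single x 1) ≠ 0 := by
    by_contra hcon
    push Not at hcon
    rw [Finset.sum_eq_zero (fun x _ => hcon x)] at hsum
    exact zero_ne_one hsum
  refine ⟨x, ?_⟩
  ext a
  have h3 : a.1 * Pi.single x 1 = (a.1 x) • (Pi.single x 1 : G → K) := by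
    ext y
    by_cases hy : y = x
    · subst hy; simp
    · simp [Pi.single_eq_of_ne hy]
  have h4 := hmul a.1 (Pi.single x 1)
  rw [h3, map_smul, smul_eq_mul] at h4
  have h5 := mul_right_cancel₀ hx h4
  rw [evalAt_apply, h5, hF]

end points

end HopfFn

open HopfFn in
theorem exists_hopf_of_functions
    {R : Type} [CommRing R] {K : Type} [Field K] [Algebra R K]
    {G : Type} [AddCommGroup G] [Finite G]
    (H : Subalgebra R (G → K))
    {ι : Type} [Finite ι] (b : Module.Basis ι R H)
    (hb : LinearIndependent K (fun i => ((b i : H) : G → K)))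
    (hspan : Submodule.span K (Set.range fun i => ((b i : H) : G → K)) = ⊤)
    (hΔ : ∀ a ∈ H, ∃ (n : ℕ) (u v : Fin n → H),
      ∀ x y, a (x + y) = ∑ i, ((u i : H) : G → K) x * ((v i : H) : G → K) y)
    (hε : ∀ a ∈ H, a 0 ∈ Set.range (algebraMap R K))
    (hS : ∀ a ∈ H, (fun x => a (-x)) ∈ H) :
    ∃ (H' : Type) (_ : CommRing H') (_ : HopfAlgebra R H'),
      Module.Finite R H' ∧ Module.Flat R H' ∧ Coalgebra.IsCocomm R H' ∧
      ∃ (j : H' → (G → K)) (e : WithConv (H' →ₐ[R] K) ≃ G),
        (∀ h, j h ∈ H) ∧ (∀ f g, e (f * g) = e f + e g) ∧ ∀ f h, f h = j h (e f) := by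
  classical
  -- `R → K` is injective
  have hne : Nonempty ι := by
    by_contra hcon
    rw [not_nonempty_iff] at hcon
    have h1 : (1 : G → K) ∈ Submodule.span K (Set.range fun i => ((b i : H) : G → K)) := by
      rw [hspan]; trivial
    rw [Set.range_eq_empty, Submodule.span_empty, Submodule.mem_bot] at h1
    exact one_ne_zero (congrFun h1 0)
  have hinj : Function.Injective (algebraMap R K) := by
    rw [injective_iff_map_eq_zero]
    intro r hr
    obtain ⟨i⟩ := hne
    have h1 : r • b i = 0 := by
      ext x
      simp [Algebra.smul_def, hr]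
    have h2 := congrArg (fun z => b.repr z i) h1
    simpa using h2
  have hb2 : LinearIndependent K (fun p => ev2 H (b.tensorProduct b p)) :=
    prodEv_indep H.val H.val b b hb hb
  have hb3 : LinearIndependent K (fun p => ev3 H (b.tensorProduct (b.tensorProduct b) p)) :=
    prodEv_indep H.val (ev2 H) b (b.tensorProduct b) hb hb2
  have h : Hyp H :=
    { inj := hinj
      inj2 := injective_of_basis hinj (b.tensorProduct b) (ev2 H).toLinearMap hb2
      inj3 := injective_of_basis hinj (b.tensorProduct (b.tensorProduct b)) (ev3 H).toLinearMap hb3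
      hΔ := by
        intro a
        obtain ⟨n, u, v, huv⟩ := hΔ a.1 a.2
        refine ⟨∑ i, u i ⊗ₜ v i, ?_⟩
        ext q
        rw [map_sum, Finset.sum_apply, huv]
        simp
      hε := fun a => hε a.1 a.2
      hS := hS }
  let E : G ≃ (H →ₐ[R] K) := Equiv.ofBijective (evalAt (H := H) (R := R))
    ⟨evalAt_injective H b hspan, evalAt_surjective H b hb hspan⟩
  refine ⟨H, inferInstance, hopf h, Module.Finite.of_basis b,
    @Module.Flat.of_free _ _ _ _ _ (Module.Free.of_basis b), isCocomm h, Subtype.val,
    (WithConv.equiv _).trans E.symm, fun a => a.2, ?_, ?_⟩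
  · intro f g
    obtain ⟨x, rfl⟩ : ∃ x, f = WithConv.toConv (evalAt x) :=
      ⟨E.symm f.ofConv, by apply WithConv.ext; exact (E.apply_symm_apply f.ofConv).symm⟩
    obtain ⟨y, rfl⟩ : ∃ y, g = WithConv.toConv (evalAt y) :=
      ⟨E.symm g.ofConv, by apply WithConv.ext; exact (E.apply_symm_apply g.ofConv).symm⟩
    rw [← evalAt_add h x y]
    have hE : ∀ z, ((WithConv.equiv _).trans E.symm) (WithConv.toConv (evalAt (H := H) z)) = z :=
      fun z => E.symm_apply_apply z
    rw [hE, hE, hE]
  · intro f a
    have := E.apply_symm_apply f.ofConv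
    exact (DFunLike.congr_fun this a).symm

end Fermat.Agent.S19
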