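import Fermat.Agent.S19.A.Criterion

/-!
# S19 / A3 : restriction of a Hopf order to a Galois-stable subgroup

`ι : G →+ G'` injective and equivariant.  If `H' ⊆ (G' → ℚ̄)` is a Hopf order (the conclusion of
`exists_hopf_order`) then `H := {a ∘ ι | a ∈ H'}` is a Hopf order for `G`:
finitely generated + torsion free over the PID `ℤ_(ℓ)`, so free; a basis is `ℚ̄`-independent by
`linearIndependent_of_isEqv_Rl`; it spans because restriction `(G' → ℚ̄) → (G → ℚ̄)` is onto.
-/

set_option autoImplicit false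

namespace Fermat.Agent.S19

variable {ℓ : ℕ} [Fact ℓ.Prime]
  {G' : Type} [AddCommGroup G'] [Finite G'] [DistribMulAction Gam G']
  {G : Type} [AddCommGroup G] [Finite G] [DistribMulAction Gam G]

/-- restriction of functions along `ι`, as an algebra homomorphism. -/
noncomputable def resHom (R : Type) [CommRing R] [Algebra R Qb] {G G' : Type} (ι : G → G') :
    (G' → Qb) →ₐ[R] (G → Qb) :=
  AlgHom.pi (fun y => Pi.evalAlgHom R (fun _ => Qb) (ι y))

@[simp] theorem resHom_apply (R : Type) [CommRing R] [Algebra R Qb] {G G' : Type} (ι : G → G')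
    (a : G' → Qb) (y : G) : resHom R ι a y = a (ι y) := rfl

/-- **A3.** -/
theorem exists_hopf_order_restrict (ι : G →+ G') (hinj : Function.Injective ι)
    (hι : ∀ (σ : Gam) y, ι (σ • y) = σ • ι y)
    (H' : Subalgebra (Rl ℓ) (G' → Qb)) (n' : ℕ) (b' : Module.Basis (Fin n') (Rl ℓ) H')
    (hEqv : ∀ a ∈ H', IsEqv a)
    (hspan : Submodule.span Qb (Set.range fun i => ((b' i : H') : G' → Qb)) = ⊤)
    (hΔ : ∀ a ∈ H', ∃ (n : ℕ) (u v : Fin n → H'),
      ∀ x y, a (x + y) = ∑ i, ((u i : H') : G' → Qb) x * ((v i : H') : G' → Qb) y)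
    (hε : ∀ a ∈ H', a 0 ∈ Set.range (algebraMap (Rl ℓ) Qb))
    (hS : ∀ a ∈ H', (fun x => a (-x)) ∈ H') :
    ∃ (H : Subalgebra (Rl ℓ) (G → Qb)) (n : ℕ) (b : Module.Basis (Fin n) (Rl ℓ) H),
    (∀ a ∈ H, IsEqv a) ∧
    LinearIndependent Qb (fun i => ((b i : H) : G → Qb)) ∧
    Submodule.span Qb (Set.range fun i => ((b i : H) : G → Qb)) = ⊤ ∧
    (∀ a ∈ H, ∃ (n : ℕ) (u v : Fin n → H),
      ∀ x y, a (x + y) = ∑ i, ((u i : H) : G → Qb) x * ((v i : H) : G → Qb) y) ∧
    (∀ a ∈ H, a 0 ∈ Set.range (algebraMap (Rl ℓ) Qb)) ∧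
    ∀ a ∈ H, (fun x => a (-x)) ∈ H := by
  classical
  set res : (G' → Qb) →ₐ[Rl ℓ] (G → Qb) := resHom (Rl ℓ) ι with hres
  set H : Subalgebra (Rl ℓ) (G → Qb) := H'.map res with hH
  have hmem : ∀ a' ∈ H', res a' ∈ H := fun a' ha' => ⟨a', ha', rfl⟩
  have hE : ∀ a ∈ H, IsEqv a := by
    rintro _ ⟨a', ha', rfl⟩ σ y
    show a' (ι (σ • y)) = σ (a' (ι y))
    rw [hι, hEqv a' ha']
  have hfg' : H'.toSubmodule.FG := by
    have : Module.Finite (Rl ℓ) H' := Module.Finite.of_basis b'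
    exact Module.Finite.iff_fg.mp this
  have hfg : H.toSubmodule.FG := by
    have h1 : H.toSubmodule = H'.toSubmodule.map res.toLinearMap := by
      ext x; rfl
    rw [h1]
    exact hfg'.map _
  have : Module.Finite (Rl ℓ) H := Module.Finite.iff_fg.mpr hfg
  have : IsPrincipalIdealRing (Rl ℓ) := isPrincipalIdealRing_Rl ℓ
  have : Module.IsTorsionFree (Rl ℓ) H := by
    refine Module.IsTorsionFree.of_smul_eq_zero fun r m hrm => ?_
    by_cases hr : r = 0
    · exact Or.inl hr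
    · right
      apply Subtype.ext
      funext y
      have h1 : (r • (m : G → Qb)) y = 0 := congrFun (congrArg Subtype.val hrm) y
      have h2 : algebraMap (Rl ℓ) Qb r * (m : G → Qb) y = 0 := by
        rw [← h1, Pi.smul_apply, Algebra.smul_def]
      rcases mul_eq_zero.mp h2 with h3 | h3
      · exfalso
        apply hr
        have h4 : algebraMap ℚ Qb (r : ℚ) = 0 := h3
        exact Subtype.ext ((map_eq_zero _).mp h4)
      · exact h3
  have : Module.Free (Rl ℓ) H := Module.free_of_finite_type_torsion_free'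
  let b := Module.finBasis (Rl ℓ) H
  refine ⟨H, _, b, hE, ?_, ?_, ?_, ?_, ?_⟩
  · refine linearIndependent_of_isEqv_Rl ℓ _ (fun i => hE _ (b i).2) ?_
    exact b.linearIndependent.map' H.val.toLinearMap
      (LinearMap.ker_eq_bot.mpr Subtype.val_injective)
  · -- spanning
    set T : Submodule Qb (G → Qb) :=
      Submodule.span Qb (Set.range fun i => ((b i : H) : G → Qb)) with hT
    have hHT : ∀ a ∈ H, a ∈ T := by
      intro a ha
      have h1 := congrArg (Subtype.val) (b.sum_repr ⟨a, ha⟩)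
      have h2 : ((∑ i, b.repr ⟨a, ha⟩ i • b i : H) : G → Qb)
          = ∑ i, b.repr ⟨a, ha⟩ i • ((b i : H) : G → Qb) :=
        (map_sum H.val _ _).trans (Finset.sum_congr rfl fun i _ => rfl)
      have h3 : a = ∑ i, b.repr ⟨a, ha⟩ i • ((b i : H) : G → Qb) := h1.symm.trans h2
      rw [h3]
      refine Submodule.sum_mem _ fun i _ => ?_
      have h4 : b.repr ⟨a, ha⟩ i • ((b i : H) : G → Qb)
          = algebraMap (Rl ℓ) Qb (b.repr ⟨a, ha⟩ i) • ((b i : H) : G → Qb) := by
        funext y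
        simp [Algebra.smul_def]
      rw [h4]
      exact Submodule.smul_mem _ _ (Submodule.subset_span ⟨i, rfl⟩)
    rw [eq_top_iff]
    intro f _
    -- extend `f` to `G'`
    let f' : G' → Qb := Function.extend ι f 0
    have hf' : f = (resHom Qb ι).toLinearMap f' := by
      funext y
      exact (hinj.extend_apply f 0 y).symm
    have hf'mem : f' ∈ Submodule.span Qb (Set.range fun i => ((b' i : H') : G' → Qb)) := by
      rw [hspan]; trivial
    have h5 : (resHom Qb ι).toLinearMap f' ∈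
        (Submodule.span Qb (Set.range fun i => ((b' i : H') : G' → Qb))).map
          (resHom Qb ι).toLinearMap := Submodule.mem_map_of_mem hf'mem
    rw [Submodule.map_span] at h5
    rw [hf']
    refine (Submodule.span_le.mpr ?_) h5
    rintro _ ⟨_, ⟨i, rfl⟩, rfl⟩
    exact hHT _ (hmem _ (b' i).2)
  · rintro _ ⟨a', ha', rfl⟩
    obtain ⟨n, u, v, huv⟩ := hΔ a' ha'
    refine ⟨n, fun i => ⟨res (u i), hmem _ (u i).2⟩, fun i => ⟨res (v i), hmem _ (v i).2⟩, ?_⟩
    intro x y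
    show a' (ι (x + y)) = _
    rw [map_add, huv]
    rfl
  · rintro _ ⟨a', ha', rfl⟩
    show a' (ι 0) ∈ _
    rw [map_zero]
    exact hε a' ha'
  · rintro _ ⟨a', ha', rfl⟩
    refine ⟨fun x => a' (-x), hS a' ha', ?_⟩
    funext x
    show a' (-(ι x)) = a' (ι (-x))
    rw [map_neg]

/-- **Interface of part A, final form**: a pairing on `G'` gives a model of every Galois-stable
subgroup `G` of `G'`. -/
theorem exists_model_of_pairing_sub (A : ValuationSubring Qb) (hA : A.LiesOverPrime ℓ)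
    (e : G' → G' → Qb) (h0 : ∀ x y, e x y ≠ 0)
    (hl : ∀ x x' y, e (x + x') y = e x y * e x' y) (hr : ∀ x y y', e x (y + y') = e x y * e x y')
    (hgal : ∀ (σ : Gam) x y, e (σ • x) (σ • y) = σ (e x y))
    (hnd : ∀ x, (∀ y, e x y = 1) → x = 0)
    (hint : ∀ x, e x ∈ intSpan A G')
    (ι : G →+ G') (hinj : Function.Injective ι) (hι : ∀ (σ : Gam) y, ι (σ • y) = σ • ι y) :
    ∃ (H : Type) (_ : CommRing H) (_ : HopfAlgebra (GaloisRep.ratLocalizedAt ℓ) H),
      Module.Finite (GaloisRep.ratLocalizedAt ℓ) H ∧ Module.Flat (GaloisRep.ratLocalizedAt ℓ) H ∧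
      Coalgebra.IsCocomm (GaloisRep.ratLocalizedAt ℓ) H ∧
      ∃ e' : WithConv (H →ₐ[GaloisRep.ratLocalizedAt ℓ] AlgebraicClosure ℚ) ≃ G,
        (∀ f g, e' (f * g) = e' f + e' g) ∧
        ∀ (σ : AlgebraicClosure ℚ ≃ₐ[ℚ] AlgebraicClosure ℚ)
          (f g : WithConv (H →ₐ[GaloisRep.ratLocalizedAt ℓ] AlgebraicClosure ℚ)),
          (∀ h : H, g h = σ (f h)) → e' g = σ • e' f := by
  obtain ⟨H₀, n₀, b₀, hEqv₀, -, hspan₀, hΔ₀, hε₀, hS₀⟩ :=
    exists_hopf_order A hA e h0 hl hr hgal hnd hint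
  obtain ⟨H, n, b, hEqv, hb, hspan, hΔ, hε, hS⟩ :=
    exists_hopf_order_restrict ι hinj hι H₀ n₀ b₀ hEqv₀ hspan₀ hΔ₀ hε₀ hS₀
  obtain ⟨H', i1, i2, hfin, hflat, hcoc, j, e', hj, hmul, hev⟩ :=
    exists_hopf_of_functions H b hb hspan hΔ hε hS
  refine ⟨H', i1, i2, hfin, hflat, hcoc, e', hmul, fun σ f g hfg => ?_⟩
  have hg : g = e'.symm (σ • e' f) := by
    apply WithConv.ext
    apply AlgHom.ext
    intro h
    have h1 : g h = σ (f h) := hfg h
    have h2 := hev (e'.symm (σ • e' f)) h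
    rw [Equiv.apply_symm_apply] at h2
    have h3 := hEqv (j h) (hj h) σ (e' f)
    show g h = (e'.symm (σ • e' f)) h
    rw [h1, h2, h3, hev f h]
  rw [hg, Equiv.apply_symm_apply]

end Fermat.Agent.S19
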