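import Fermat.Agent.S19.A.Defs

/-!
# S19 / A2b : equivariant functions which are independent over `ℚ` are independent over `ℚ̄`

Artin's trick: take a non trivial relation `∑ κ i • v i = 0` with minimal support, normalised by
`κ i₀ = 1`; apply `σ`: `∑ σ (κ i) • v i = 0` (because `v i (σ y) = σ (v i y)` and `σ` permutes `G`);
the difference is shorter, so `σ (κ i) = κ i` for all `σ`, so `κ i ∈ ℚ`.
-/

set_option autoImplicit false

namespace Fermat.Agent.S19

/-- an element of `ℚ̄` fixed by the whole Galois group is rational. -/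
theorem exists_rat_of_fixed_artin (z : Qb) (h : ∀ σ : Gam, σ z = z) :
    ∃ r : ℚ, algebraMap ℚ Qb r = z := by
  have h1 : Algebra.IsAlgebraic ℚ (AlgebraicClosure ℚ) := AlgebraicClosure.isAlgebraic ℚ
  have h2 : IsAlgClosure ℚ (AlgebraicClosure ℚ) := ⟨inferInstance, inferInstance⟩
  have h3 : Normal ℚ (AlgebraicClosure ℚ) := IsAlgClosure.normal ℚ (AlgebraicClosure ℚ)
  have h4 : IsGalois ℚ Qb := {}
  have h5 : z ∈ (⊥ : IntermediateField ℚ Qb) := (InfiniteGalois.mem_bot_iff_fixed z).2 h
  exact IntermediateField.mem_bot.1 h5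

theorem linearIndependent_of_isEqv {G : Type*} [MulAction Gam G] {ι : Type*} (v : ι → G → Qb)
    (hv : ∀ i, IsEqv (v i)) (hli : LinearIndependent ℚ v) : LinearIndependent Qb v := by
  classical
  rw [linearIndependent_iff']
  intro s
  induction s using Finset.induction_on with
  | empty => intro κ _ i hi; simp at hi
  | insert a s has ih =>
    intro κ hκ
    rw [Finset.sum_insert has] at hκ
    by_cases hκa : κ a = 0
    · rw [hκa, zero_smul, zero_add] at hκ
      intro i hi
      rcases Finset.mem_insert.1 hi with rfl | hi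
      · exact hκa
      · exact ih κ hκ i hi
    exfalso
    -- normalise
    set l : ι → Qb := fun i => -(κ i / κ a) with hl
    have hva : v a = ∑ i ∈ s, l i • v i := by
      have h1 : (κ a)⁻¹ • (κ a • v a + ∑ i ∈ s, κ i • v i) = 0 := by rw [hκ, smul_zero]
      rw [smul_add, smul_smul, inv_mul_cancel₀ hκa, one_smul, Finset.smul_sum] at h1
      rw [eq_neg_of_add_eq_zero_left h1, ← Finset.sum_neg_distrib]
      refine Finset.sum_congr rfl fun i _ => ?_
      rw [smul_smul, hl, ← neg_smul]
      congr 1
      ring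
    -- the coefficients are fixed
    have hfix : ∀ σ : Gam, ∀ i ∈ s, σ (l i) = l i := by
      intro σ i hi
      have h2 : ∑ i ∈ s, (σ (l i) - l i) • v i = 0 := by
        funext y
        have e1 : v a y = ∑ i ∈ s, l i * v i y := by
          rw [hva]; simp [Finset.sum_apply]
        have e2 : v a y = ∑ i ∈ s, σ (l i) * v i y := by
          have e3 : v a (σ⁻¹ • y) = ∑ i ∈ s, l i * v i (σ⁻¹ • y) := by
            rw [hva]; simp [Finset.sum_apply]
          have e4 := congrArg σ e3
          rw [← hv a σ, smul_inv_smul, map_sum] at e4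
          rw [e4]
          refine Finset.sum_congr rfl fun i _ => ?_
          rw [map_mul, ← hv i σ, smul_inv_smul]
        simp only [Finset.sum_apply, Pi.smul_apply, smul_eq_mul, sub_mul, Finset.sum_sub_distrib,
          Pi.zero_apply]
        rw [← e1, ← e2, sub_self]
      exact sub_eq_zero.1 (ih _ h2 i hi)
    have hrat : ∀ i, ∃ r : ℚ, i ∈ s → algebraMap ℚ Qb r = l i := by
      intro i
      by_cases hi : i ∈ s
      · obtain ⟨r, hr⟩ := exists_rat_of_fixed_artin (l i) (fun σ => hfix σ i hi)
        exact ⟨r, fun _ => hr⟩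
      · exact ⟨0, fun h => absurd h hi⟩
    choose r hr using hrat
    have hrel : ∑ i ∈ insert a s, (if i = a then (1 : ℚ) else - r i) • v i = 0 := by
      rw [Finset.sum_insert has, if_pos rfl, one_smul, hva, ← Finset.sum_add_distrib]
      refine Finset.sum_eq_zero fun i hi => ?_
      have hia : i ≠ a := fun h => has (h ▸ hi)
      rw [if_neg hia, ← hr i hi, neg_smul, algebraMap_smul, add_neg_cancel]
    have := linearIndependent_iff'.1 hli _ _ hrel a (Finset.mem_insert_self a s)
    rw [if_pos rfl] at this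
    exact one_ne_zero this

/-- the same over `ℤ_(ℓ)`. -/
theorem linearIndependent_of_isEqv_Rl (ℓ : ℕ) [Fact ℓ.Prime] {G : Type*} [MulAction Gam G]
    {ι : Type*} (v : ι → G → Qb)
    (hv : ∀ i, IsEqv (v i)) (hli : LinearIndependent (Rl ℓ) v) : LinearIndependent Qb v := by
  refine linearIndependent_of_isEqv v hv ?_
  have h1 : LinearIndependent ℤ v := by
    refine LinearIndependent.restrict_scalars (K := Rl ℓ) ?_ hli
    intro a b hab
    have h2 : ((a • (1 : Rl ℓ) : Rl ℓ) : ℚ) = ((b • (1 : Rl ℓ) : Rl ℓ) : ℚ) := congrArg _ hab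
    simpa using h2
  exact (LinearIndependent.iff_fractionRing (R := ℤ) (K := ℚ)).1 h1

end Fermat.Agent.S19
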