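import Fermat.Agent.S19.A.Defs

/-!
# S19 / A2-0 : the characters `e x` of a non-degenerate pairing form a basis of `G → K`
(Dedekind independence + count).
-/

set_option autoImplicit false

namespace Fermat.Agent.S19

theorem linearIndependent_char_aux {K : Type*} [Field K] {G : Type*} [AddCommGroup G] [Finite G]
    (e : G → G → K) (h0 : ∀ x y, e x y ≠ 0)
    (hl : ∀ x x' y, e (x + x') y = e x y * e x' y) (hr : ∀ x y y', e x (y + y') = e x y * e x y')
    (hnd : ∀ x, (∀ y, e x y = 1) → x = 0) :
    LinearIndependent K e ∧ Submodule.span K (Set.range e) = ⊤ := by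
  classical
  have := Fintype.ofFinite G
  have he0 : ∀ x, e x 0 = 1 := by
    intro x
    have h := hr x 0 0
    rw [add_zero] at h
    exact (mul_eq_left₀ (h0 x 0)).1 h.symm
  let χ : G → (Multiplicative G →* K) := fun x =>
    { toFun := fun y => e x y.toAdd
      map_one' := he0 x
      map_mul' := fun y y' => hr x y.toAdd y'.toAdd }
  have hχ : Function.Injective χ := by
    intro x x' h
    have h1 : ∀ y, e x y = e x' y := fun y => DFunLike.congr_fun h (Multiplicative.ofAdd y)
    have h2 : x - x' = 0 := by
      apply hnd
      intro y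
      have h3 := hl (x - x') x' y
      rw [sub_add_cancel, h1 y] at h3
      exact (mul_eq_right₀ (h0 x' y)).1 h3.symm
    exact sub_eq_zero.1 h2
  have hli0 : LinearIndependent K (fun x : G => (χ x : Multiplicative G → K)) :=
    (linearIndependent_monoidHom (Multiplicative G) K).comp χ hχ
  have hli : LinearIndependent K e := by
    have h4 := hli0.map' (LinearEquiv.funCongrLeft K K
      (Multiplicative.ofAdd : G ≃ Multiplicative G)).toLinearMap (LinearEquiv.ker _)
    exact h4
  refine ⟨hli, ?_⟩
  have : Nonempty G := ⟨0⟩
  exact hli.span_eq_top_of_card_eq_finrank (by rw [Module.finrank_fintype_fun_eq_card])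

end Fermat.Agent.S19
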