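import Fermat.Agent.S19.A.Order

/-!
# S19 / A2-2 : the Hopf order `H = ℤ_(ℓ)[c i]`   (proof of `exists_hopf_order` of `A/Criterion.lean`)
-/

set_option autoImplicit false

namespace Fermat.Agent.S19

namespace HopfOrder

open Fermat.Agent.S19.Order

section pairing

variable {G : Type} [AddCommGroup G] (e : G → G → Qb) (h0 : ∀ x y, e x y ≠ 0)
  (hl : ∀ x x' y, e (x + x') y = e x y * e x' y) (hr : ∀ x y y', e x (y + y') = e x y * e x y')

include h0 hl in
theorem e_zero_left (y : G) : e 0 y = 1 := by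
  have h := hl 0 0 y
  rw [add_zero] at h
  exact (mul_eq_left₀ (h0 0 y)).mp h.symm

include h0 hr in
theorem e_zero_right (x : G) : e x 0 = 1 := by
  have h := hr x 0 0
  rw [add_zero] at h
  exact (mul_eq_left₀ (h0 x 0)).mp h.symm

include h0 hl hr in
theorem e_neg (x y : G) : e (-x) y = e x (-y) := by
  have h1 : e (-x) y * e x y = 1 := by rw [← hl, neg_add_cancel, e_zero_left e h0 hl]
  have h2 : e x (-y) * e x y = 1 := by rw [← hr, neg_add_cancel, e_zero_right e h0 hr]
  exact mul_right_cancel₀ (h0 x y) (h1.trans h2.symm)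

end pairing

section comul

variable {R : Type} [CommRing R] [Algebra R Qb] {G : Type} [AddCommGroup G]

/-- `a (x + y)` is a finite sum of products `u x * v y` with `u v ∈ H`. -/
def HasComul (H : Subalgebra R (G → Qb)) (a : G → Qb) : Prop :=
  ∃ (ι : Type) (_ : Fintype ι) (u v : ι → H),
    ∀ x y, a (x + y) = ∑ i, ((u i : H) : G → Qb) x * ((v i : H) : G → Qb) y

theorem HasComul.of_algebraMap (H : Subalgebra R (G → Qb)) (r : R) :
    HasComul H (algebraMap R (G → Qb) r) :=
  ⟨Unit, inferInstance, fun _ => ⟨algebraMap R (G → Qb) r, H.algebraMap_mem r⟩, fun _ => 1,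
    fun x y => by simp⟩

theorem HasComul.add {H : Subalgebra R (G → Qb)} {a a' : G → Qb} (h : HasComul H a)
    (h' : HasComul H a') : HasComul H (a + a') := by
  obtain ⟨ι, _, u, v, huv⟩ := h
  obtain ⟨ι', _, u', v', huv'⟩ := h'
  refine ⟨ι ⊕ ι', inferInstance, Sum.elim u u', Sum.elim v v', fun x y => ?_⟩
  rw [Fintype.sum_sum_type, Pi.add_apply, huv, huv']
  rfl

theorem HasComul.mul {H : Subalgebra R (G → Qb)} {a a' : G → Qb} (h : HasComul H a)
    (h' : HasComul H a') : HasComul H (a * a') := by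
  obtain ⟨ι, _, u, v, huv⟩ := h
  obtain ⟨ι', _, u', v', huv'⟩ := h'
  refine ⟨ι × ι', inferInstance, fun p => u p.1 * u' p.2, fun p => v p.1 * v' p.2,
    fun x y => ?_⟩
  rw [Pi.mul_apply, huv, huv', Finset.sum_mul_sum, Fintype.sum_prod_type]
  refine Finset.sum_congr rfl fun i _ => Finset.sum_congr rfl fun j _ => ?_
  show _ = (((u i : H) : G → Qb) x * ((u' j : H) : G → Qb) x)
    * (((v i : H) : G → Qb) y * ((v' j : H) : G → Qb) y)
  ring

theorem HasComul.fin {H : Subalgebra R (G → Qb)} {a : G → Qb} (h : HasComul H a) :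
    ∃ (n : ℕ) (u v : Fin n → H),
      ∀ x y, a (x + y) = ∑ i, ((u i : H) : G → Qb) x * ((v i : H) : G → Qb) y := by
  obtain ⟨ι, _, u, v, huv⟩ := h
  refine ⟨Fintype.card ι, u ∘ (Fintype.equivFin ι).symm, v ∘ (Fintype.equivFin ι).symm,
    fun x y => ?_⟩
  rw [huv]
  exact ((Fintype.equivFin ι).symm.sum_comp
    (fun i => ((u i : H) : G → Qb) x * ((v i : H) : G → Qb) y)).symm

end comul

variable {ℓ : ℕ} [Fact ℓ.Prime] (A : ValuationSubring Qb) (hA : A.LiesOverPrime ℓ)
  {G : Type} [AddCommGroup G] [Finite G] [DistribMulAction Gam G]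
  (e : G → G → Qb) (h0 : ∀ x y, e x y ≠ 0)
  (hl : ∀ x x' y, e (x + x') y = e x y * e x' y) (hr : ∀ x y y', e x (y + y') = e x y * e x y')
  (hgal : ∀ (σ : Gam) x y, e (σ • x) (σ • y) = σ (e x y))
  (hint : ∀ x, e x ∈ intSpan A G)
  (hchar : Submodule.span Qb (Set.range e) = ⊤)

include hA h0 hl hr hgal hint hchar in
/-- **A2-2.** -/
theorem exists_hopf_order : ∃ (H : Subalgebra (Rl ℓ) (G → Qb)) (n : ℕ)
    (b : Module.Basis (Fin n) (Rl ℓ) H),
    (∀ a ∈ H, IsEqv a) ∧
    LinearIndependent Qb (fun i => ((b i : H) : G → Qb)) ∧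
    Submodule.span Qb (Set.range fun i => ((b i : H) : G → Qb)) = ⊤ ∧
    (∀ a ∈ H, ∃ (n : ℕ) (u v : Fin n → H),
      ∀ x y, a (x + y) = ∑ i, ((u i : H) : G → Qb) x * ((v i : H) : G → Qb) y) ∧
    (∀ a ∈ H, a 0 ∈ Set.range (algebraMap (Rl ℓ) Qb)) ∧
    ∀ a ∈ H, (fun x => a (-x)) ∈ H := by
  classical
  obtain ⟨n, β, hβeq, hβA, hβli, hβspan, heβ, hβmul, hβone, hβneg⟩ :=
    Order.exists_order A hA e hint hchar
  set B : Module.Basis (Fin n) Qb (G → Qb) := Module.Basis.mk hβli hβspan.ge with hB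
  have hBβ : ∀ i, B i = β i := fun i => Module.Basis.mk_apply hβli hβspan.ge i
  set c : Fin n → G → Qb := fun i x => B.repr (e x) i with hc
  have he : ∀ x y, e x y = ∑ i, c i x * β i y := by
    intro x y
    have h1 := congrFun (B.sum_repr (e x)) y
    rw [← h1, Finset.sum_apply]
    refine Finset.sum_congr rfl fun i _ => ?_
    rw [Pi.smul_apply, hBβ, smul_eq_mul]
  have uniq : ∀ (f : G → Qb) (a : Fin n → Qb), (∀ y, f y = ∑ i, a i * β i y) →
      ∀ i, B.repr f i = a i := by
    intro f a hf i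
    have h1 : f = ∑ i, a i • B i := by
      funext y
      rw [hf y, Finset.sum_apply]
      refine Finset.sum_congr rfl fun i _ => ?_
      rw [Pi.smul_apply, hBβ, smul_eq_mul]
    rw [h1, B.repr_sum_self]
  -- (i) integrality
  have hcA : ∀ i x, c i x ∈ A := by
    intro i x
    obtain ⟨a, ha⟩ := (Submodule.mem_span_range_iff_exists_fun A).mp (heβ x)
    have h1 : c i x = (a i : Qb) := by
      refine uniq (e x) (fun i => (a i : Qb)) (fun y => ?_) i
      rw [← ha, Finset.sum_apply]
      rfl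
    rw [h1]
    exact (a i).2
  -- (ii) equivariance
  have hceq : ∀ i, IsEqv (c i) := by
    intro i σ x
    refine uniq (e (σ • x)) (fun i => σ (c i x)) (fun y => ?_) i
    obtain ⟨y', rfl⟩ : ∃ y', σ • y' = y := ⟨σ⁻¹ • y, smul_inv_smul σ y⟩
    rw [hgal, he x y', map_sum]
    refine Finset.sum_congr rfl fun i _ => ?_
    rw [map_mul, hβeq i σ y']
  -- (iii) comultiplication
  choose γ hγ using fun j k => (Submodule.mem_span_range_iff_exists_fun (Rl ℓ)).mp (hβmul j k)
  have hγ' : ∀ j k y, β j y * β k y = ∑ i, algebraMap (Rl ℓ) Qb (γ j k i) * β i y := by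
    intro j k y
    have h1 := congrFun (hγ j k) y
    rw [Pi.mul_apply] at h1
    rw [← h1, Finset.sum_apply]
    refine Finset.sum_congr rfl fun i _ => ?_
    rw [Pi.smul_apply, Algebra.smul_def]
  have hcadd : ∀ i x x', c i (x + x')
      = ∑ j, ∑ k, algebraMap (Rl ℓ) Qb (γ j k i) * c j x * c k x' := by
    intro i x x'
    refine uniq (e (x + x')) (fun i => ∑ j, ∑ k, algebraMap (Rl ℓ) Qb (γ j k i) * c j x * c k x')
      (fun y => ?_) i
    rw [hl, he x y, he x' y, Finset.sum_mul_sum]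
    have h1 : ∀ j k, c j x * β j y * (c k x' * β k y)
        = ∑ i, algebraMap (Rl ℓ) Qb (γ j k i) * c j x * c k x' * β i y := by
      intro j k
      have : c j x * β j y * (c k x' * β k y) = c j x * c k x' * (β j y * β k y) := by ring
      rw [this, hγ', Finset.mul_sum]
      refine Finset.sum_congr rfl fun i _ => by ring
    simp only [h1, Finset.sum_mul]
    refine Eq.trans ?_ Finset.sum_comm
    refine Finset.sum_congr rfl fun j _ => ?_
    exact Finset.sum_comm
  -- (iv) antipode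
  choose ν hν using fun j => (Submodule.mem_span_range_iff_exists_fun (Rl ℓ)).mp (hβneg j)
  have hν' : ∀ j y, β j (-y) = ∑ i, algebraMap (Rl ℓ) Qb (ν j i) * β i y := by
    intro j y
    have h1 := congrFun (hν j) y
    rw [← h1, Finset.sum_apply]
    refine Finset.sum_congr rfl fun i _ => ?_
    rw [Pi.smul_apply, Algebra.smul_def]
  have hcneg : ∀ i x, c i (-x) = ∑ j, algebraMap (Rl ℓ) Qb (ν j i) * c j x := by
    intro i x
    refine uniq (e (-x)) (fun i => ∑ j, algebraMap (Rl ℓ) Qb (ν j i) * c j x) (fun y => ?_) i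
    rw [e_neg e h0 hl hr, he x (-y)]
    simp only [hν', Finset.mul_sum, Finset.sum_mul]
    refine Eq.trans ?_ Finset.sum_comm
    refine Finset.sum_congr rfl fun j _ => Finset.sum_congr rfl fun i _ => by ring
  -- (v) the `c i` form a basis
  have hcli : LinearIndependent Qb c := by
    rw [Fintype.linearIndependent_iff]
    intro lam hlam i
    set Λ : (G → Qb) →ₗ[Qb] Qb := B.constr Qb lam with hΛ
    have h1 : ∀ x, Λ (e x) = 0 := by
      intro x
      rw [hΛ, Module.Basis.constr_apply_fintype]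
      have h2 : (∑ i, lam i • c i) x = 0 := congrFun hlam x
      rw [Finset.sum_apply] at h2
      rw [← h2]
      refine Finset.sum_congr rfl fun i _ => ?_
      rw [Pi.smul_apply, smul_eq_mul, smul_eq_mul, mul_comm]
      rfl
    have h3 : Λ = 0 := by
      apply LinearMap.ext_on_range hchar
      intro x
      rw [h1, LinearMap.zero_apply]
    have h4 : Λ (B i) = lam i := B.constr_basis Qb lam i
    rw [← h4, h3, LinearMap.zero_apply]
  have hcspan : Submodule.span Qb (Set.range c) = ⊤ :=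
    hcli.span_eq_top_of_card_eq_finrank' (Module.finrank_eq_card_basis B).symm
  -- the algebra
  have hcE : Set.range c ⊆ eqvAlg A hA G := by
    rintro _ ⟨i, rfl⟩
    exact ⟨hceq i, hcA i⟩
  set H : Subalgebra (Rl ℓ) (G → Qb) := Algebra.adjoin (Rl ℓ) (Set.range c) with hH
  have hle : H ≤ eqvAlg A hA G := Algebra.adjoin_le hcE
  have hcH : ∀ i, c i ∈ H := fun i => Algebra.subset_adjoin ⟨i, rfl⟩
  obtain ⟨m, b, hbli⟩ := exists_basis_adjoin A hA (Set.finite_range c) hcE
  refine ⟨H, m, b, fun a ha => (hle ha).1, hbli, ?_, ?_, ?_, ?_⟩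
  · rw [eq_top_iff, ← hcspan, Submodule.span_le]
    rintro _ ⟨i, rfl⟩
    refine span_A_le_span_Qb A _ (span_Rl_le_span_A A hA _ ?_)
    rw [span_basis_eq H b]
    exact hcH i
  · intro a ha
    refine HasComul.fin ?_
    induction ha using Algebra.adjoin_induction with
    | mem x hx =>
      obtain ⟨i, rfl⟩ := hx
      refine ⟨Fin n × Fin n, inferInstance, fun p => ⟨γ p.1 p.2 i • c p.1, H.smul_mem (hcH _) _⟩,
        fun p => ⟨c p.2, hcH _⟩, fun x y => ?_⟩
      rw [hcadd, Fintype.sum_prod_type]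
      refine Finset.sum_congr rfl fun j _ => Finset.sum_congr rfl fun k _ => ?_
      show _ = (γ j k i • c j) x * c k y
      rw [Pi.smul_apply, Algebra.smul_def]
    | algebraMap r => exact HasComul.of_algebraMap H r
    | add x y _ _ hx hy => exact hx.add hy
    | mul x y _ _ hx hy => exact hx.mul hy
  · intro a ha
    refine mem_range_Rl_of_fixed A hA (a 0) (fun σ => ?_) ((hle ha).2 0)
    rw [← (hle ha).1 σ 0, smul_zero]
  · intro a ha
    have h1 : H.map (negHom (Rl ℓ) G) ≤ H := by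
      rw [hH, AlgHom.map_adjoin]
      refine Algebra.adjoin_le ?_
      rintro _ ⟨_, ⟨i, rfl⟩, rfl⟩
      have h2 : negHom (Rl ℓ) G (c i) = ∑ j, ν j i • c j := by
        funext x
        rw [negHom_apply, hcneg, Finset.sum_apply]
        refine Finset.sum_congr rfl fun j _ => ?_
        rw [Pi.smul_apply, Algebra.smul_def]
      rw [h2]
      exact sum_mem fun j _ => H.smul_mem (hcH j) _
    exact h1 ⟨a, ha, rfl⟩

end HopfOrder

end Fermat.Agent.S19
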