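import Fermat.Agent.S19.A.Hopf
import Fermat.Agent.S19.A.Rl
import Fermat.Agent.S19.A.Artin
import Fermat.Agent.S19.A.HopfOrder
import Fermat.Agent.S19.A.Char

/-!
# S19 / A2 : the criterion

`G` a finite abelian group with an action of `Gam`, `e : G × G → ℚ̄ˣ` bimultiplicative,
equivariant, non-degenerate, with `e x ∈ intSpan A G` for all `x`.  Then `G` is the group of
`ℚ̄`-points of a finite flat commutative cocommutative Hopf algebra over `ℤ_(ℓ)`.
-/

set_option autoImplicit false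

namespace Fermat.Agent.S19

variable {ℓ : ℕ} [Fact ℓ.Prime] (A : ValuationSubring Qb) (hA : A.LiesOverPrime ℓ)
  {G : Type} [AddCommGroup G] [Finite G] [DistribMulAction Gam G]
  (e : G → G → Qb) (h0 : ∀ x y, e x y ≠ 0)
  (hl : ∀ x x' y, e (x + x') y = e x y * e x' y) (hr : ∀ x y y', e x (y + y') = e x y * e x y')
  (hgal : ∀ (σ : Gam) x y, e (σ • x) (σ • y) = σ (e x y))
  (hnd : ∀ x, (∀ y, e x y = 1) → x = 0)
  (hint : ∀ x, e x ∈ intSpan A G)

include hr h0 hnd hl in
/-- **A2-0.** the characters `e x` form a `ℚ̄`-basis of `G → ℚ̄` (Dedekind + count). -/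
theorem linearIndependent_char : LinearIndependent Qb e ∧ Submodule.span Qb (Set.range e) = ⊤ :=
  linearIndependent_char_aux e h0 hl hr hnd

include hA h0 hl hr hnd hint in
/-- **A2-1.** the order `O₁`: finitely many equivariant `A`-valued functions `𝒮` (stable under
`φ ↦ φ ∘ neg`) with `e x ∈ A`-span of monomials; `O₁ = ℤ_(ℓ)[𝒮]` is a finitely generated
(integral elements) torsion free `ℤ_(ℓ)`-module, so it is free; `β` is a basis of it. -/
theorem exists_order : ∃ (n : ℕ) (β : Fin n → G → Qb),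
    (∀ i, IsEqv (β i)) ∧ (∀ i y, β i y ∈ A) ∧ LinearIndependent Qb β ∧
    Submodule.span Qb (Set.range β) = ⊤ ∧
    (∀ x, e x ∈ Submodule.span A (Set.range β)) ∧
    (∀ i j, β i * β j ∈ Submodule.span (Rl ℓ) (Set.range β)) ∧
    (1 : G → Qb) ∈ Submodule.span (Rl ℓ) (Set.range β) ∧
    ∀ i, (fun y => β i (-y)) ∈ Submodule.span (Rl ℓ) (Set.range β) :=
  Order.exists_order A hA e hint (linearIndependent_char e h0 hl hr hnd).2

include hA h0 hl hr hgal hnd hint in
/-- **A2-2.** the coordinate functions `c i` of `e x` in the basis `β` and the algebra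
`H = ℤ_(ℓ)[c i]`: all hypotheses of `exists_hopf_of_functions`. -/
theorem exists_hopf_order : ∃ (H : Subalgebra (Rl ℓ) (G → Qb)) (n : ℕ)
    (b : Module.Basis (Fin n) (Rl ℓ) H),
    (∀ a ∈ H, IsEqv a) ∧
    LinearIndependent Qb (fun i => ((b i : H) : G → Qb)) ∧
    Submodule.span Qb (Set.range fun i => ((b i : H) : G → Qb)) = ⊤ ∧
    (∀ a ∈ H, ∃ (n : ℕ) (u v : Fin n → H),
      ∀ x y, a (x + y) = ∑ i, ((u i : H) : G → Qb) x * ((v i : H) : G → Qb) y) ∧
    (∀ a ∈ H, a 0 ∈ Set.range (algebraMap (Rl ℓ) Qb)) ∧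
    ∀ a ∈ H, (fun x => a (-x)) ∈ H :=
  HopfOrder.exists_hopf_order A hA e h0 hl hr hgal hint (linearIndependent_char e h0 hl hr hnd).2

include hA h0 hl hr hgal hnd hint in
/-- **A2 (interface of part A).** -/
theorem exists_model_of_pairing :
    ∃ (H : Type) (_ : CommRing H) (_ : HopfAlgebra (GaloisRep.ratLocalizedAt ℓ) H),
      Module.Finite (GaloisRep.ratLocalizedAt ℓ) H ∧ Module.Flat (GaloisRep.ratLocalizedAt ℓ) H ∧
      Coalgebra.IsCocomm (GaloisRep.ratLocalizedAt ℓ) H ∧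
      ∃ e' : WithConv (H →ₐ[GaloisRep.ratLocalizedAt ℓ] AlgebraicClosure ℚ) ≃ G,
        (∀ f g, e' (f * g) = e' f + e' g) ∧
        ∀ (σ : AlgebraicClosure ℚ ≃ₐ[ℚ] AlgebraicClosure ℚ)
          (f g : WithConv (H →ₐ[GaloisRep.ratLocalizedAt ℓ] AlgebraicClosure ℚ)),
          (∀ h : H, g h = σ (f h)) → e' g = σ • e' f := by
  obtain ⟨H, n, b, hEqv, hb, hspan, hΔ, hε, hS⟩ :=
    exists_hopf_order A hA e h0 hl hr hgal hnd hint
  obtain ⟨H', i1, i2, hfin, hflat, hcoc, j, e', hj, hmul, hev⟩ :=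
    exists_hopf_of_functions H b hb hspan hΔ hε hS
  refine ⟨H', i1, i2, hfin, hflat, hcoc, e', hmul, fun σ f g hfg => ?_⟩
  have hg : g = e'.symm (σ • e' f) := by
    apply WithConv.ext
    apply AlgHom.ext
    intro h
    have h1 : g h = σ (f h) := hfg h
    have h2 := hev (e'.symm (σ • e' f)) h
    rw [Equiv.apply_symm_apply] at h2
    have h3 := hEqv (j h) (hj h) σ (e' f)
    show g h = (e'.symm (σ • e' f)) h
    rw [h1, h2, h3, hev f h]
  rw [hg, Equiv.apply_symm_apply]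

end Fermat.Agent.S19
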