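import Fermat.Agent.S19.A.Rl
import Fermat.Agent.S19.A.Artin

/-!
# S19 / A2-1 : the order `O₁`   (proof of `exists_order` of `A/Criterion.lean`)

Also: general tools on the `ℤ_(ℓ)`-algebra `eqvAlg A G` of equivariant `A`-valued functions, used
again in `A/HopfOrder.lean`.
-/

set_option autoImplicit false

namespace Fermat.Agent.S19

namespace Order

variable {ℓ : ℕ} [Fact ℓ.Prime] (A : ValuationSubring Qb) (hA : A.LiesOverPrime ℓ)
  {G : Type} [AddCommGroup G] [DistribMulAction Gam G]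

/-- the `ℤ_(ℓ)`-algebra of equivariant `A`-valued functions. -/
def eqvAlg (hA : A.LiesOverPrime ℓ) (G : Type) [AddCommGroup G] [DistribMulAction Gam G] :
    Subalgebra (Rl ℓ) (G → Qb) where
  carrier := {φ | IsEqv φ ∧ ∀ y, φ y ∈ A}
  mul_mem' := fun {φ ψ} hφ hψ => ⟨fun σ y => by
    rw [Pi.mul_apply, Pi.mul_apply, hφ.1, hψ.1, map_mul], fun y => A.mul_mem _ _ (hφ.2 y) (hψ.2 y)⟩
  add_mem' := fun {φ ψ} hφ hψ => ⟨fun σ y => by
    rw [Pi.add_apply, Pi.add_apply, hφ.1, hψ.1, map_add], fun y => A.add_mem _ _ (hφ.2 y) (hψ.2 y)⟩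
  algebraMap_mem' := fun r => ⟨fun σ y => by
    show algebraMap (Rl ℓ) Qb r = σ (algebraMap (Rl ℓ) Qb r)
    exact (σ.commutes (r : ℚ)).symm, fun y => algebraMap_Rl_mem A hA r⟩

theorem mem_eqvAlg {φ : G → Qb} : φ ∈ eqvAlg A hA G ↔ IsEqv φ ∧ ∀ y, φ y ∈ A := Iff.rfl

/-- `φ ↦ φ ∘ neg` as an algebra homomorphism. -/
def negHom (R : Type) [CommRing R] [Algebra R Qb] (G : Type) [AddCommGroup G] :
    (G → Qb) →ₐ[R] (G → Qb) where
  toFun φ := fun y => φ (-y)
  map_one' := rfl
  map_mul' _ _ := rfl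
  map_zero' := rfl
  map_add' _ _ := rfl
  commutes' _ := rfl

@[simp] theorem negHom_apply (R : Type) [CommRing R] [Algebra R Qb] (φ : G → Qb) (y : G) :
    negHom R G φ y = φ (-y) := rfl

theorem negHom_mem_eqvAlg {φ : G → Qb} (hφ : φ ∈ eqvAlg A hA G) :
    negHom (Rl ℓ) G φ ∈ eqvAlg A hA G :=
  ⟨fun σ y => by rw [negHom_apply, negHom_apply, ← smul_neg, hφ.1], fun y => hφ.2 _⟩

variable [Finite G]

/-- a function with integral values is integral. -/
theorem isIntegral_pi {R : Type} [CommRing R] [Algebra R Qb] (φ : G → Qb)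
    (h : ∀ y, IsIntegral R (φ y)) : IsIntegral R φ := by
  classical
  cases nonempty_fintype G
  choose P hPm hP using h
  refine ⟨∏ y, P y, Polynomial.monic_prod_of_monic _ _ fun y _ => hPm y, ?_⟩
  funext y
  have h1 : Polynomial.eval₂ (algebraMap R (G → Qb)) φ (∏ y, P y) y
      = Polynomial.eval₂ (algebraMap R Qb) (φ y) (∏ y, P y) := by
    exact (Polynomial.aeval_algHom_apply (Pi.evalAlgHom R (fun _ : G => Qb) y) φ (∏ y, P y)).symm
  rw [h1, Polynomial.eval₂_finsetProd]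
  exact Finset.prod_eq_zero (Finset.mem_univ y) (hP y)

include hA in
theorem isIntegral_of_mem_eqvAlg {φ : G → Qb} (hφ : φ ∈ eqvAlg A hA G) : IsIntegral (Rl ℓ) φ :=
  isIntegral_pi φ fun y => isIntegral_of_forall_mem A hA _ fun σ => by
    rw [← hφ.1]; exact hφ.2 _

/-- A subalgebra of `eqvAlg` generated by a finite set is free of finite rank, and a basis of it is
linearly independent over `ℚ̄`. -/
theorem exists_basis_adjoin {s : Set (G → Qb)} (hs : s.Finite) (hsE : s ⊆ eqvAlg A hA G) :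
    ∃ (n : ℕ) (b : Module.Basis (Fin n) (Rl ℓ) (Algebra.adjoin (Rl ℓ) s)),
      LinearIndependent Qb (fun i => ((b i : Algebra.adjoin (Rl ℓ) s) : G → Qb)) := by
  have hle : Algebra.adjoin (Rl ℓ) s ≤ eqvAlg A hA G := Algebra.adjoin_le hsE
  have hfg : (Algebra.adjoin (Rl ℓ) s).toSubmodule.FG :=
    fg_adjoin_of_finite hs fun x hx => isIntegral_of_mem_eqvAlg A hA (hsE hx)
  have : Module.Finite (Rl ℓ) (Algebra.adjoin (Rl ℓ) s) :=
    Module.Finite.iff_fg.mpr hfg
  have : IsPrincipalIdealRing (Rl ℓ) := isPrincipalIdealRing_Rl ℓ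
  have : Module.IsTorsionFree (Rl ℓ) (Algebra.adjoin (Rl ℓ) s) := by
    refine Module.IsTorsionFree.of_smul_eq_zero fun r m hrm => ?_
    by_cases hr : r = 0
    · exact Or.inl hr
    · right
      apply Subtype.ext
      funext y
      have h1 : (r • (m : G → Qb)) y = 0 := congrFun (congrArg Subtype.val hrm) y
      have h2 : algebraMap (Rl ℓ) Qb r * (m : G → Qb) y = 0 := by
        rw [← h1, Pi.smul_apply, Algebra.smul_def]
      rcases mul_eq_zero.mp h2 with h3 | h3
      · exfalso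
        apply hr
        have h4 : algebraMap ℚ Qb (r : ℚ) = 0 := h3
        exact Subtype.ext ((map_eq_zero _).mp h4)
      · exact h3
  have : Module.Free (Rl ℓ) (Algebra.adjoin (Rl ℓ) s) := Module.free_of_finite_type_torsion_free'
  let b := Module.finBasis (Rl ℓ) (Algebra.adjoin (Rl ℓ) s)
  refine ⟨_, b, linearIndependent_of_isEqv_Rl ℓ _ (fun i => (hle (b i).2).1) ?_⟩
  exact b.linearIndependent.map' (Algebra.adjoin (Rl ℓ) s).val.toLinearMap
    (LinearMap.ker_eq_bot.mpr Subtype.val_injective)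

omit [Finite G] [DistribMulAction Gam G] [Fact ℓ.Prime] in
/-- the span of a basis of a subalgebra, inside the ambient algebra. -/
theorem span_basis_eq (M : Subalgebra (Rl ℓ) (G → Qb)) {n : ℕ}
    (b : Module.Basis (Fin n) (Rl ℓ) M) :
    Submodule.span (Rl ℓ) (Set.range fun i => ((b i : M) : G → Qb)) = M.toSubmodule := by
  apply le_antisymm
  · rw [Submodule.span_le]
    rintro _ ⟨i, rfl⟩
    exact (b i).2
  · intro m hm
    have h1 := congrArg (Subtype.val) (b.sum_repr ⟨m, hm⟩)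
    have h2 : ((∑ i, b.repr ⟨m, hm⟩ i • b i : M) : G → Qb)
        = ∑ i, b.repr ⟨m, hm⟩ i • ((b i : M) : G → Qb) :=
      (map_sum M.val _ _).trans (Finset.sum_congr rfl fun i _ => rfl)
    have h3 : m = ∑ i, b.repr ⟨m, hm⟩ i • ((b i : M) : G → Qb) := h1.symm.trans h2
    rw [h3]
    exact Submodule.sum_mem _ fun i _ => Submodule.smul_mem _ _ (Submodule.subset_span ⟨i, rfl⟩)

omit [Finite G] [DistribMulAction Gam G] in
include hA in
theorem span_Rl_le_span_A (S : Set (G → Qb)) {v : G → Qb} (hv : v ∈ Submodule.span (Rl ℓ) S) :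
    v ∈ Submodule.span A S := by
  induction hv using Submodule.span_induction with
  | mem x hx => exact Submodule.subset_span hx
  | zero => exact Submodule.zero_mem _
  | add x y _ _ hx hy => exact Submodule.add_mem _ hx hy
  | smul r x _ hx =>
    have h1 : r • x = (⟨algebraMap (Rl ℓ) Qb r, algebraMap_Rl_mem A hA r⟩ : A) • x := by
      funext y
      rw [Pi.smul_apply, Pi.smul_apply, Algebra.smul_def]
      rfl
    rw [h1]
    exact Submodule.smul_mem _ _ hx

omit [Finite G] [DistribMulAction Gam G] in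
theorem span_A_le_span_Qb (S : Set (G → Qb)) {v : G → Qb} (hv : v ∈ Submodule.span A S) :
    v ∈ Submodule.span Qb S := by
  induction hv using Submodule.span_induction with
  | mem x hx => exact Submodule.subset_span hx
  | zero => exact Submodule.zero_mem _
  | add x y _ _ hx hy => exact Submodule.add_mem _ hx hy
  | smul r x _ hx =>
    have h1 : r • x = (r : Qb) • x := rfl
    rw [h1]
    exact Submodule.smul_mem _ _ hx

include hA in
/-- **A2-1.** -/
theorem exists_order (e : G → G → Qb) (hint : ∀ x, e x ∈ intSpan A G)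
    (hchar : Submodule.span Qb (Set.range e) = ⊤) : ∃ (n : ℕ) (β : Fin n → G → Qb),
    (∀ i, IsEqv (β i)) ∧ (∀ i y, β i y ∈ A) ∧ LinearIndependent Qb β ∧
    Submodule.span Qb (Set.range β) = ⊤ ∧
    (∀ x, e x ∈ Submodule.span A (Set.range β)) ∧
    (∀ i j, β i * β j ∈ Submodule.span (Rl ℓ) (Set.range β)) ∧
    (1 : G → Qb) ∈ Submodule.span (Rl ℓ) (Set.range β) ∧
    ∀ i, (fun y => β i (-y)) ∈ Submodule.span (Rl ℓ) (Set.range β) := by
  classical
  choose T hT1 hT2 using fun x => Submodule.mem_span_finite_of_mem_span (hint x)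
  set s₀ : Set (G → Qb) := ⋃ x, (T x : Set (G → Qb)) with hs₀
  set s : Set (G → Qb) := s₀ ∪ negHom (Rl ℓ) G '' s₀ with hs
  have hs₀fin : s₀.Finite := Set.finite_iUnion fun x => (T x).finite_toSet
  have hsfin : s.Finite := hs₀fin.union (hs₀fin.image _)
  have hs₀E : s₀ ⊆ eqvAlg A hA G := by
    intro φ hφ
    obtain ⟨x, hx⟩ := Set.mem_iUnion.mp hφ
    exact hT1 x hx
  have hsE : s ⊆ eqvAlg A hA G := by
    rintro φ (hφ | ⟨ψ, hψ, rfl⟩)
    · exact hs₀E hφ
    · exact negHom_mem_eqvAlg A hA (hs₀E hψ)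
  have hneg : negHom (Rl ℓ) G '' s ⊆ s := by
    rintro _ ⟨φ, hφ | ⟨ψ, hψ, rfl⟩, rfl⟩
    · exact Or.inr ⟨φ, hφ, rfl⟩
    · left
      have : negHom (Rl ℓ) G (negHom (Rl ℓ) G ψ) = ψ := by
        funext y; simp
      rwa [this]
  obtain ⟨n, b, hli⟩ := exists_basis_adjoin A hA hsfin hsE
  have hle : Algebra.adjoin (Rl ℓ) s ≤ eqvAlg A hA G := Algebra.adjoin_le hsE
  have hspan := span_basis_eq (Algebra.adjoin (Rl ℓ) s) b
  set β : Fin n → G → Qb := fun i => ((b i : Algebra.adjoin (Rl ℓ) s) : G → Qb) with hβ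
  have hmem : ∀ φ, φ ∈ Algebra.adjoin (Rl ℓ) s → φ ∈ Submodule.span (Rl ℓ) (Set.range β) := by
    intro φ hφ
    rw [hspan]; exact hφ
  have he : ∀ x, e x ∈ Submodule.span A (Set.range β) := by
    intro x
    refine (Submodule.span_le.mpr ?_) (hT2 x)
    intro t ht
    refine span_Rl_le_span_A A hA _ (hmem t (Algebra.subset_adjoin (Or.inl ?_)))
    exact Set.mem_iUnion.mpr ⟨x, ht⟩
  refine ⟨n, β, fun i => (hle (b i).2).1, fun i => (hle (b i).2).2, hli, ?_, he,
    fun i j => hmem _ (mul_mem (b i).2 (b j).2), hmem _ (one_mem _), fun i => hmem _ ?_⟩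
  · rw [eq_top_iff, ← hchar, Submodule.span_le]
    rintro _ ⟨x, rfl⟩
    exact span_A_le_span_Qb A _ (he x)
  · have h1 : (Algebra.adjoin (Rl ℓ) s).map (negHom (Rl ℓ) G) ≤ Algebra.adjoin (Rl ℓ) s := by
      rw [AlgHom.map_adjoin]
      exact Algebra.adjoin_mono hneg
    exact h1 ⟨_, (b i).2, rfl⟩

end Order

end Fermat.Agent.S19
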