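import Mathlib
import Fermat.Prelude.Def_GaloisRep_Flat

/-!
# S19 / part A : definitions
-/

set_option autoImplicit false

namespace Fermat.Agent.S19

/-- `ℚ̄`. -/
abbrev Qb : Type := AlgebraicClosure ℚ

/-- the absolute Galois group of `ℚ`. -/
abbrev Gam : Type := Qb ≃ₐ[ℚ] Qb

/-- `ℤ_(ℓ)`. -/
abbrev Rl (ℓ : ℕ) : Type := ↥(GaloisRep.ratLocalizedAt ℓ)

/-- Galois-equivariant functions `G → ℚ̄`. -/
def IsEqv {G : Type*} [SMul Gam G] (φ : G → Qb) : Prop :=
  ∀ (σ : Gam) (y : G), φ (σ • y) = σ (φ y)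

/-- the `A`-span of the equivariant `A`-valued functions. -/
noncomputable def intSpan (A : ValuationSubring Qb) (G : Type*) [SMul Gam G] : Submodule A (G → Qb) :=
  Submodule.span A {φ | IsEqv φ ∧ ∀ y, φ y ∈ A}

end Fermat.Agent.S19
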